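import Fermat.Agent.S55.P.HNT.Norm
import Fermat.Agent.S55.P.Unram

/-!
# S55, block (P), package P-HNT-3: local norms are in `locNorm`.
-/

set_option autoImplicit false

namespace Fermat.Agent.S55.P

open NumberField IsDedekindDomain
open scoped Pointwise

local notation "Qbar" => AlgebraicClosure ℚ
local notation "GQ" => (AlgebraicClosure ℚ ≃ₐ[ℚ] AlgebraicClosure ℚ)

variable {K L : IntermediateField ℚ Qbar}

/-- an element fixed by `Gal(ℚ̄/L) ∩ D_A`, `A = g • padicPlace q`, lies in `g (hens q) ⊔ L` -/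
theorem mem_map_hens_sup_of_fixed (q : ℕ) [Fact q.Prime] (g : GQ) {y : Qbar}
    (hy : ∀ s ∈ L.fixingSubgroup ⊓ (g • padicPlace q).decompositionSubgroup ℚ, s y = y) :
    y ∈ (hens q).map (g : Qbar →ₐ[ℚ] Qbar) ⊔ L := by
  have : IsGalois ℚ Qbar := Fermat.Agent.Lib.FrobeniusExists.isGalois_algebraicClosure_rat
  have hfix : ((hens q).map (g : Qbar →ₐ[ℚ] Qbar) ⊔ L).fixingSubgroup =
      L.fixingSubgroup ⊓ (g • padicPlace q).decompositionSubgroup ℚ := by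
    rw [IntermediateField.fixingSubgroup_sup, fixingSubgroup_map, fixingSubgroup_hens,
      ← decompositionSubgroup_smul, inf_comm]
  rw [← InfiniteGalois.fixedField_fixingSubgroup ((hens q).map (g : Qbar →ₐ[ℚ] Qbar) ⊔ L),
    IntermediateField.mem_fixedField_iff]
  intro s hs
  exact hy s (hfix ▸ hs)

/-- density at the place `g • padicPlace q` -/
theorem exists_prod_close_one_smul (q : ℕ) [Fact q.Prime] (g : GQ) {ι : Type*} (s : Finset ι)
    (τ : ι → GQ) (hτ : ∀ i ∈ s, τ i ∈ (g • padicPlace q).decompositionSubgroup ℚ) {y : Qbar}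
    (hy : ∀ s ∈ L.fixingSubgroup ⊓ (g • padicPlace q).decompositionSubgroup ℚ, s y = y)
    (hy0 : y ≠ 0) (m : ℕ) :
    ∃ y₀ ∈ L, y₀ ≠ 0 ∧
      Close (g • padicPlace q) q m ((∏ i ∈ s, τ i y) / ∏ i ∈ s, τ i y₀) 1 := by
  have h1 := mem_map_hens_sup_of_fixed q g hy
  have hgg : ∀ x : Qbar, g (g⁻¹ x) = x := fun x => g.apply_symm_apply x
  have h2 : g⁻¹ y ∈ hens q ⊔ L.map ((g⁻¹ : GQ) : Qbar →ₐ[ℚ] Qbar) := by
    have h3 : g⁻¹ y ∈ ((hens q).map (g : Qbar →ₐ[ℚ] Qbar) ⊔ L).map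
        ((g⁻¹ : GQ) : Qbar →ₐ[ℚ] Qbar) := (IntermediateField.mem_map _).mpr ⟨y, h1, rfl⟩
    rw [IntermediateField.map_sup, IntermediateField.map_map] at h3
    have h4 : (((g⁻¹ : GQ) : Qbar →ₐ[ℚ] Qbar).comp (g : Qbar →ₐ[ℚ] Qbar)) = AlgHom.id ℚ Qbar := by
      ext x
      exact g.symm_apply_apply x
    rwa [h4, IntermediateField.map_id] at h3
  have hτ' : ∀ i ∈ s, g⁻¹ * τ i * g ∈ (padicPlace q).decompositionSubgroup ℚ := by
    intro i hi
    have h3 := hτ i hi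
    rw [decompositionSubgroup_smul] at h3
    obtain ⟨d, hd, hdτ⟩ := h3
    have h4 : τ i = g * d * g⁻¹ := hdτ.symm
    rw [h4]
    have : g⁻¹ * (g * d * g⁻¹) * g = d := by group
    rw [this]
    exact hd
  have hy0' : g⁻¹ y ≠ 0 := by
    rw [Ne, map_eq_zero_iff _ (g⁻¹).injective]
    exact hy0
  obtain ⟨z, hz, hz0, hc⟩ := exists_prod_close_one q (L.map ((g⁻¹ : GQ) : Qbar →ₐ[ℚ] Qbar)) s
    (fun i => g⁻¹ * τ i * g) hτ' h2 hy0' m
  obtain ⟨y₀, hy₀, rfl⟩ := (IntermediateField.mem_map _).mp hz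
  have hy₀0 : y₀ ≠ 0 := by
    rintro rfl
    exact hz0 (map_zero _)
  refine ⟨y₀, hy₀, hy₀0, ?_⟩
  have h5 := hc.smul g
  rw [map_one, map_div₀, map_prod, map_prod] at h5
  have h6 : ∀ (x : Qbar) (i : ι), g ((g⁻¹ * τ i * g) (g⁻¹ x)) = τ i x := by
    intro x i
    show g (g⁻¹ (τ i (g (g⁻¹ x)))) = τ i x
    rw [hgg, hgg]
  have h7 : ∀ x : Qbar, (((g⁻¹ : GQ) : Qbar →ₐ[ℚ] Qbar) x) = g⁻¹ x := fun _ => rfl
  simp only [h7, h6] at h5
  exact h5

/-- a local norm at `A = g • padicPlace q` lies in `locNorm` -/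
theorem mem_locNorm_of_local_norm (h : K ≤ L) [NumberField K] [NumberField L] {p : ℕ}
    (hp : p.Prime) (hN : (L.fixingSubgroup.subgroupOf K.fixingSubgroup).Normal)
    (hidx : L.fixingSubgroup.relIndex K.fixingSubgroup = p)
    (q : ℕ) [hq : Fact q.Prime] (g : GQ) (hA : (g • padicPlace q).LiesOverPrime q)
    {τ : GQ} (hτK : τ ∈ K.fixingSubgroup)
    (hτD : τ ∈ (g • padicPlace q).decompositionSubgroup ℚ) (hτL : τ ∉ L.fixingSubgroup)
    {y : Qbar}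
    (hy : ∀ s ∈ L.fixingSubgroup ⊓ (g • padicPlace q).decompositionSubgroup ℚ, s y = y)
    (a : Kˣ) (hya : ∏ i ∈ Finset.range p, (τ ^ i) y = ((a : K) : Qbar)) :
    letI := (IntermediateField.inclusion h).toRingHom.toAlgebra
    a ∈ H.locNorm L (plUnder K (g • padicPlace q) hq.out hA) := by
  letI := (IntermediateField.inclusion h).toRingHom.toAlgebra
  have ha0 : ((a : K) : Qbar) ≠ 0 := by
    simp
  have hy0 : y ≠ 0 := by
    rintro rfl
    apply ha0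
    rw [← hya]
    exact Finset.prod_eq_zero (Finset.mem_range.mpr hp.pos) (map_zero _)
  rw [H.mem_locNorm_iff]
  intro m
  rw [H.mem_nrm_iff]
  obtain ⟨y₀, hy₀, hy₀0, hc⟩ := exists_prod_close_one_smul (L := L) q g (Finset.range p)
    (fun i => τ ^ i) (fun i _ => pow_mem hτD i) hy hy0 (m + 1)
  have hnorm := coe_norm_eq_prod h hp hN hidx hτK hτL (⟨y₀, hy₀⟩ : L)
  have hyL0 : (⟨y₀, hy₀⟩ : L) ≠ 0 := fun h0 => hy₀0 (congrArg Subtype.val h0)
  refine ⟨Units.mk0 (⟨y₀, hy₀⟩ : L) hyL0, ?_⟩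
  rw [H.mem_nearOne_iff]
  have hc' : Close (g • padicPlace q) q (m + 1)
      ((((a / H.normU K L (Units.mk0 (⟨y₀, hy₀⟩ : L) hyL0) : Kˣ) : K) : Qbar)) (((1 : K) : Qbar)) := by
    have e1 : (((a / H.normU K L (Units.mk0 (⟨y₀, hy₀⟩ : L) hyL0) : Kˣ) : K) : Qbar) =
        (∏ i ∈ Finset.range p, (τ ^ i) y) / ∏ i ∈ Finset.range p, (τ ^ i) y₀ := by
      rw [hya, ← hnorm]
      simp [Units.val_div_eq_div_val]
    rw [e1]
    simpa using hc
  have hv := valuation_le_exp_of_close K (plUnder K (g • padicPlace q) hq.out hA)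
    (g • padicPlace q) rfl hA (m + 1) _ _ hc'
  refine lt_of_le_of_lt hv ?_
  rw [WithZero.exp_lt_exp]
  push_cast
  omega

end Fermat.Agent.S55.P
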