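import Fermat.Agent.S55.P.HNT.Places
import Fermat.Agent.S55.P.HNT.Local
import Fermat.Agent.S55.H.U.Count

/-!
# S55, block (P), package P-HNT-4: the Hasse norm theorem for cyclic extensions of degree `p`,
stated inside `ℚ̄`
-/

set_option autoImplicit false
set_option linter.style.haveILetI false

namespace Fermat.Agent.S55.P

open NumberField IsDedekindDomain
open scoped Pointwise

local notation "Qbar" => AlgebraicClosure ℚ
local notation "GQ" => (AlgebraicClosure ℚ ≃ₐ[ℚ] AlgebraicClosure ℚ)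

/-- **Hasse norm theorem inside `ℚ̄`.**  `L/K` cyclic of degree `p`, `μ_p ⊆ K`, `σ` a generator of
`Gal(L/K)`.  If at every place `A = g • padicPlace q` of `ℚ̄` either the decomposition group of `A`
over `K` acts trivially on `L`, or `a` is the norm (for a generator `τ` in the decomposition group)
of an element of the local field `g (hens q) ⊔ L`, then `a` is a global norm. -/
theorem hnt_Qbar {p : ℕ} (hp : p.Prime) (hp2 : p ≠ 2) (K L : IntermediateField ℚ Qbar)
    [FiniteDimensional ℚ L] (h : K ≤ L) (hζ : ∃ ζ ∈ K, IsPrimitiveRoot ζ p)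
    (hN : (L.fixingSubgroup.subgroupOf K.fixingSubgroup).Normal)
    (hidx : L.fixingSubgroup.relIndex K.fixingSubgroup = p)
    {σ : GQ} (hσK : σ ∈ K.fixingSubgroup) (hσL : σ ∉ L.fixingSubgroup)
    {a : Qbar} (haK : a ∈ K) (ha0 : a ≠ 0)
    (hloc : ∀ (q : ℕ) [Fact q.Prime] (g : GQ),
      (K.fixingSubgroup ⊓ (g • padicPlace q).decompositionSubgroup ℚ ≤ L.fixingSubgroup) ∨
      ∃ τ ∈ K.fixingSubgroup ⊓ (g • padicPlace q).decompositionSubgroup ℚ,
        τ ∉ L.fixingSubgroup ∧ ∃ y : Qbar,
          (∀ s ∈ L.fixingSubgroup ⊓ (g • padicPlace q).decompositionSubgroup ℚ, s y = y) ∧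
          ∏ i ∈ Finset.range p, (τ ^ i) y = a) :
    ∃ y ∈ L, ∏ i ∈ Finset.range p, (σ ^ i) y = a := by
  classical
  letI alg := (IntermediateField.inclusion h).toRingHom.toAlgebra
  haveI : FiniteDimensional ℚ K :=
    FiniteDimensional.of_injective (IntermediateField.inclusion h).toLinearMap
      (IntermediateField.inclusion h).injective
  haveI : NumberField K := numberField_of_finiteDimensional K
  haveI : NumberField L := numberField_of_finiteDimensional L
  haveI : IsGalois K L := (Fermat.Agent.S55.L.B2a.isGalois_iff h).2 hN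
  have hdeg : Module.finrank K L = p := (Fermat.Agent.S55.L.B2a.finrank_eq_relIndex h).trans hidx
  obtain ⟨ζ, hζK, hζ⟩ := hζ
  have hp3 : 2 < p := lt_of_le_of_ne hp.two_le (Ne.symm hp2)
  have hζ' : IsPrimitiveRoot (⟨ζ, hζK⟩ : K) p :=
    IsPrimitiveRoot.of_map_of_injective (f := K.val) (hf := K.val.injective) hζ
  haveI : IsTotallyComplex K := H.isTotallyComplex_of_primitiveRoot hp3 hζ'
  have ha0' : (⟨a, haK⟩ : K) ≠ 0 := fun h0 => ha0 (congrArg Subtype.val h0)
  set a' : Kˣ := Units.mk0 ⟨a, haK⟩ ha0' with ha'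
  have hall : ∀ v : H.Pl K, a' ∈ H.locNorm L v := by
    intro v
    obtain ⟨q, hq, g, hv⟩ := exists_place_over K v
    have hA : (g • padicPlace q).LiesOverPrime q :=
      (liesOverPrime_smul_iff _ g q).2 (padicPlace_liesOverPrime q)
    have hv' : v = plUnder K (g • padicPlace q) hq.out hA := HeightOneSpectrum.ext hv
    rw [hv']
    rcases hloc q g with hs | ⟨τ, hτ, hτL, y, hy, hya⟩
    · rw [locNorm_eq_top_of_inf_le h hp hN hidx _ hq.out hA hs]
      exact Subgroup.mem_top _
    · exact mem_locNorm_of_local_norm h hp hN hidx q g hA hτ.1 hτ.2 hτL hy a' hya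
  obtain ⟨y, hy⟩ := hnt_box hp hdeg a' hall
  refine ⟨((y : L) : Qbar), (y : L).2, ?_⟩
  rw [← coe_norm_eq_prod h hp hN hidx hσK hσL (y : L)]
  have h1 := congrArg (fun u : Kˣ => ((u : K) : Qbar)) hy
  simpa [ha'] using h1

end Fermat.Agent.S55.P
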