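import Fermat.Agent.S55.P.HNT.Defs
import Fermat.Agent.S55.L.B2aGalois

/-!
# S55, block (P), package P-HNT-1: the relative extension `L/K` of number fields inside `ℚ̄`:
Galois, degree, norm as a product over powers of a generator.
-/

set_option autoImplicit false
set_option linter.style.haveILetI false

namespace Fermat.Agent.S55.P

open NumberField IsDedekindDomain
open scoped Pointwise

local notation "Qbar" => AlgebraicClosure ℚ
local notation "GQ" => (AlgebraicClosure ℚ ≃ₐ[ℚ] AlgebraicClosure ℚ)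

/-! ### groups of prime order -/

section Group

/-- in a group of prime order every element is `s ^ i`, `i < p`, for any `s ≠ 1` -/
theorem Norm.exists_pow_eq {Q : Type*} [Group Q] {p : ℕ} (hp : p.Prime) (hcard : Nat.card Q = p)
    {s : Q} (hs : s ≠ 1) (q : Q) : ∃ i < p, s ^ i = q := by
  haveI := Fact.mk hp
  obtain ⟨k, hk⟩ := mem_powers_of_prime_card hcard hs (g' := q)
  refine ⟨k % p, Nat.mod_lt _ hp.pos, ?_⟩
  rw [← hk, ← hcard, pow_mod_natCard]

theorem Norm.prod_pow_eq_prod_univ {Q : Type*} [Group Q] [Fintype Q] {p : ℕ} (hp : p.Prime)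
    (hcard : Nat.card Q = p) {s : Q} (hs : s ≠ 1) {X : Type*} [CommMonoid X] (F : Q → X) :
    ∏ i ∈ Finset.range p, F (s ^ i) = ∏ q, F q := by
  haveI := Fact.mk hp
  have hord : orderOf s = p := orderOf_eq_prime (by rw [← hcard]; exact pow_card_eq_one') hs
  refine Finset.prod_bij (fun i _ => s ^ i) (fun _ _ => Finset.mem_univ _) ?_ ?_ (fun _ _ => rfl)
  · intro i hi j hj hij
    refine pow_injOn_Iio_orderOf (x := s) ?_ ?_ hij
    · rw [hord]; exact Finset.mem_range.mp hi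
    · rw [hord]; exact Finset.mem_range.mp hj
  · intro q _
    obtain ⟨i, hi, rfl⟩ := Norm.exists_pow_eq hp hcard hs q
    exact ⟨i, Finset.mem_range.mpr hi, rfl⟩

variable {G : Type*} [Group G] {A B : Subgroup G}

theorem Norm.card_quot {p : ℕ} (hidx : B.relIndex A = p) :
    Nat.card (A ⧸ B.subgroupOf A) = p := hidx

theorem Norm.mk_ne_one [(B.subgroupOf A).Normal] {σ : G} (hσA : σ ∈ A) (hσB : σ ∉ B) :
    (QuotientGroup.mk ⟨σ, hσA⟩ : A ⧸ B.subgroupOf A) ≠ 1 := by
  rw [Ne, QuotientGroup.eq_one_iff, Subgroup.mem_subgroupOf]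
  exact hσB

theorem Norm.group_exists_pow_mul {p : ℕ} (hp : p.Prime) (hN : (B.subgroupOf A).Normal)
    (hidx : B.relIndex A = p) {σ : G} (hσA : σ ∈ A) (hσB : σ ∉ B) {τ : G} (hτ : τ ∈ A) :
    ∃ i < p, ∃ u ∈ B, τ = σ ^ i * u := by
  obtain ⟨i, hi, h⟩ := Norm.exists_pow_eq hp (Norm.card_quot hidx) (Norm.mk_ne_one hσA hσB)
    (QuotientGroup.mk ⟨τ, hτ⟩ : A ⧸ B.subgroupOf A)
  rw [← QuotientGroup.mk_pow, QuotientGroup.eq, Subgroup.mem_subgroupOf] at h
  refine ⟨i, hi, (σ ^ i)⁻¹ * τ, by simpa using h, ?_⟩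
  rw [mul_inv_cancel_left]

theorem Norm.group_pow_mem {p : ℕ} (hN : (B.subgroupOf A).Normal)
    (hidx : B.relIndex A = p) {σ : G} (hσA : σ ∈ A) : σ ^ p ∈ B := by
  have h : (QuotientGroup.mk ⟨σ, hσA⟩ : A ⧸ B.subgroupOf A) ^ p = 1 := by
    rw [← Norm.card_quot hidx]; exact pow_card_eq_one'
  rw [← QuotientGroup.mk_pow, QuotientGroup.eq_one_iff, Subgroup.mem_subgroupOf] at h
  simpa using h

/-- products over the powers of a generator do not depend on the generator -/
theorem Norm.group_prod_pow {p : ℕ} (hp : p.Prime) (hN : (B.subgroupOf A).Normal)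
    (hidx : B.relIndex A = p) {σ τ : G} (hσA : σ ∈ A) (hσB : σ ∉ B) (hτA : τ ∈ A) (hτB : τ ∉ B)
    {X : Type*} [CommMonoid X] (f : G → X) (hf : ∀ g : G, ∀ u ∈ B, f (g * u) = f g) :
    ∏ i ∈ Finset.range p, f (τ ^ i) = ∏ i ∈ Finset.range p, f (σ ^ i) := by
  have hcard := Norm.card_quot hidx
  haveI : Finite (A ⧸ B.subgroupOf A) := Nat.finite_of_card_ne_zero (by rw [hcard]; exact hp.ne_zero)
  letI := Fintype.ofFinite (A ⧸ B.subgroupOf A)
  let F : A ⧸ B.subgroupOf A → X := Quotient.lift (fun a : A => f a) (by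
    intro a b hab
    have h1 : a⁻¹ * b ∈ B.subgroupOf A := QuotientGroup.leftRel_apply.mp hab
    rw [Subgroup.mem_subgroupOf] at h1
    have h2 := hf a _ h1
    simp only [Subgroup.coe_mul, InvMemClass.coe_inv, mul_inv_cancel_left] at h2
    exact h2.symm)
  have hF : ∀ (g : G) (hg : g ∈ A) (i : ℕ),
      F ((QuotientGroup.mk ⟨g, hg⟩ : A ⧸ B.subgroupOf A) ^ i) = f (g ^ i) := by
    intro g hg i
    rw [← QuotientGroup.mk_pow]
    rfl
  have h1 := Norm.prod_pow_eq_prod_univ hp hcard (Norm.mk_ne_one hσA hσB) F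
  have h2 := Norm.prod_pow_eq_prod_univ hp hcard (Norm.mk_ne_one hτA hτB) F
  simp only [hF] at h1 h2
  rw [h1, h2]

end Group

attribute [local instance] Fermat.Agent.S55.L.B2a.isGalois_Qbar

variable {K L : IntermediateField ℚ Qbar}

/-- `σ ∈ Gal(ℚ̄/K)` preserves `L` when `L/K` is normal -/
theorem apply_mem_of_normal (h : K ≤ L)
    (hN : (L.fixingSubgroup.subgroupOf K.fixingSubgroup).Normal)
    {σ : GQ} (hσ : σ ∈ K.fixingSubgroup) {y : Qbar} (hy : y ∈ L) : σ y ∈ L := by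
  have hfix : IntermediateField.fixedField L.fixingSubgroup = L :=
    InfiniteGalois.fixedField_fixingSubgroup L
  rw [← hfix, IntermediateField.mem_fixedField_iff]
  intro u hu
  have huK : u ∈ K.fixingSubgroup := IntermediateField.fixingSubgroup_antitone h hu
  have h1 := hN.conj_mem ⟨u, huK⟩ (Subgroup.mem_subgroupOf.mpr hu) ⟨σ⁻¹, inv_mem hσ⟩
  rw [Subgroup.mem_subgroupOf] at h1
  have h2 : σ⁻¹ * u * σ ∈ L.fixingSubgroup := by simpa using h1
  have h3 := (IntermediateField.mem_fixingSubgroup_iff L _).mp h2 y hy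
  have h4 : σ ((σ⁻¹ * u * σ) y) = u (σ y) := by
    simp [AlgEquiv.mul_apply]
  rw [← h4, h3]

/-- every element of `Gal(ℚ̄/K)` is `σ ^ i` modulo `Gal(ℚ̄/L)` -/
theorem exists_pow_mul_of_relIndex_prime {p : ℕ} (hp : p.Prime)
    (hN : (L.fixingSubgroup.subgroupOf K.fixingSubgroup).Normal)
    (hidx : L.fixingSubgroup.relIndex K.fixingSubgroup = p)
    {σ : GQ} (hσK : σ ∈ K.fixingSubgroup) (hσL : σ ∉ L.fixingSubgroup)
    {τ : GQ} (hτ : τ ∈ K.fixingSubgroup) :
    ∃ i < p, ∃ u ∈ L.fixingSubgroup, τ = σ ^ i * u :=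
  Norm.group_exists_pow_mul hp hN hidx hσK hσL hτ

theorem pow_mem_fixingSubgroup_of_relIndex_prime {p : ℕ} (hp : p.Prime)
    (hN : (L.fixingSubgroup.subgroupOf K.fixingSubgroup).Normal)
    (hidx : L.fixingSubgroup.relIndex K.fixingSubgroup = p)
    {σ : GQ} (hσK : σ ∈ K.fixingSubgroup) : σ ^ p ∈ L.fixingSubgroup :=
  Norm.group_pow_mem hN hidx hσK

/-- the restriction of `σ ∈ Gal(ℚ̄/K)` to `L` -/
noncomputable def Norm.restr (h : K ≤ L)
    (hN : (L.fixingSubgroup.subgroupOf K.fixingSubgroup).Normal)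
    {σ : GQ} (hσ : σ ∈ K.fixingSubgroup) :
    letI := (IntermediateField.inclusion h).toRingHom.toAlgebra
    L ≃ₐ[K] L :=
  letI := (IntermediateField.inclusion h).toRingHom.toAlgebra
  { toFun := fun y => ⟨σ y, apply_mem_of_normal h hN hσ y.2⟩
    invFun := fun y => ⟨σ⁻¹ y, apply_mem_of_normal h hN (inv_mem hσ) y.2⟩
    left_inv := fun y => Subtype.ext (by simp [AlgEquiv.aut_inv])
    right_inv := fun y => Subtype.ext (by simp [AlgEquiv.aut_inv])
    map_mul' := fun x y => Subtype.ext (by simp)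
    map_add' := fun x y => Subtype.ext (by simp)
    commutes' := fun x => Subtype.ext
      ((IntermediateField.mem_fixingSubgroup_iff K σ).mp hσ x x.2) }

theorem Norm.restr_pow_coe (h : K ≤ L)
    (hN : (L.fixingSubgroup.subgroupOf K.fixingSubgroup).Normal)
    {σ : GQ} (hσ : σ ∈ K.fixingSubgroup) (i : ℕ) (y : L) :
    letI := (IntermediateField.inclusion h).toRingHom.toAlgebra
    ((((Norm.restr h hN hσ) ^ i) y : L) : Qbar) = (σ ^ i) (y : Qbar) := by
  letI := (IntermediateField.inclusion h).toRingHom.toAlgebra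
  induction i generalizing y with
  | zero => simp
  | succ n ih =>
    rw [pow_succ, pow_succ, AlgEquiv.mul_apply, AlgEquiv.mul_apply, ih]
    rfl

/-- the norm of `L/K` is the product over the powers of a generator of `Gal(L/K)` -/
theorem coe_norm_eq_prod (h : K ≤ L) [FiniteDimensional ℚ L] {p : ℕ} (hp : p.Prime)
    (hN : (L.fixingSubgroup.subgroupOf K.fixingSubgroup).Normal)
    (hidx : L.fixingSubgroup.relIndex K.fixingSubgroup = p)
    {σ : GQ} (hσK : σ ∈ K.fixingSubgroup) (hσL : σ ∉ L.fixingSubgroup) (y : L) :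
    letI := (IntermediateField.inclusion h).toRingHom.toAlgebra
    ((Algebra.norm K y : K) : Qbar) = ∏ i ∈ Finset.range p, (σ ^ i) (y : Qbar) := by
  letI := (IntermediateField.inclusion h).toRingHom.toAlgebra
  haveI : IsGalois K L := (Fermat.Agent.S55.L.B2a.isGalois_iff h).mpr hN
  haveI : FiniteDimensional K L :=
    Fermat.Agent.S55.L.B2a.finiteDimensional_of_relIndex_ne_zero h (by rw [hidx]; exact hp.ne_zero)
  have hcard : Nat.card (L ≃ₐ[K] L) = p := by
    rw [IsGalois.card_aut_eq_finrank, Fermat.Agent.S55.L.B2a.finrank_eq_relIndex h, hidx]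
  set ρ := Norm.restr h hN hσK with hρ
  have hρ1 : ρ ≠ 1 := by
    intro h1
    apply hσL
    rw [IntermediateField.mem_fixingSubgroup_iff]
    intro x hx
    have := congrArg (fun e : L ≃ₐ[K] L => ((e ⟨x, hx⟩ : L) : Qbar)) h1
    exact this
  have h1 := Algebra.norm_eq_prod_automorphisms K y
  have h2 := Norm.prod_pow_eq_prod_univ hp hcard hρ1 (fun e : L ≃ₐ[K] L => e y)
  rw [← h2] at h1
  have h3 := congrArg (fun z : L => (z : Qbar)) h1
  have h4 : ((algebraMap K L (Algebra.norm K y) : L) : Qbar) = ((Algebra.norm K y : K) : Qbar) := rfl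
  rw [h4] at h3
  rw [h3]
  have h5 : ((∏ i ∈ Finset.range p, (ρ ^ i) y : L) : Qbar)
      = ∏ i ∈ Finset.range p, (((ρ ^ i) y : L) : Qbar) := by
    simp
  rw [h5]
  exact Finset.prod_congr rfl fun i _ => Norm.restr_pow_coe h hN hσK i y

/-- the product does not depend on the generator -/
theorem prod_pow_eq_prod_pow {p : ℕ} (hp : p.Prime)
    (hN : (L.fixingSubgroup.subgroupOf K.fixingSubgroup).Normal)
    (hidx : L.fixingSubgroup.relIndex K.fixingSubgroup = p)
    {σ τ : GQ} (hσK : σ ∈ K.fixingSubgroup) (hσL : σ ∉ L.fixingSubgroup)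
    (hτK : τ ∈ K.fixingSubgroup) (hτL : τ ∉ L.fixingSubgroup) {y : Qbar} (hy : y ∈ L) :
    ∏ i ∈ Finset.range p, (τ ^ i) y = ∏ i ∈ Finset.range p, (σ ^ i) y :=
  Norm.group_prod_pow hp hN hidx hσK hσL hτK hτL (fun g : GQ => g y) (fun g u hu => by
    change (g * u) y = g y
    rw [AlgEquiv.mul_apply, (IntermediateField.mem_fixingSubgroup_iff L u).mp hu y hy])

end Fermat.Agent.S55.P
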