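import Fermat.Agent.S55.H.Main
import Fermat.Agent.S55.P.Val
import Fermat.Agent.S55.P.Dens

/-!
# S55, block (P), bridge to block [H]: definitions and the two black boxes of [H]
-/

set_option autoImplicit false

namespace Fermat.Agent.S55.P

open NumberField IsDedekindDomain
open scoped Pointwise

local notation "Qbar" => AlgebraicClosure ℚ
local notation "GQ" => (AlgebraicClosure ℚ ≃ₐ[ℚ] AlgebraicClosure ℚ)

/-- a finite dimensional intermediate field is a number field -/
theorem numberField_of_finiteDimensional (K : IntermediateField ℚ Qbar) [FiniteDimensional ℚ K] :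
    NumberField K :=
  { to_charZero := inferInstance, to_finiteDimensional := inferInstance }

/-- the finite place of `K` under the place `A` of `ℚ̄` -/
noncomputable def plUnder (K : IntermediateField ℚ Qbar) (A : ValuationSubring Qbar) {q : ℕ}
    (hq : q.Prime) (hA : A.LiesOverPrime q) : HeightOneSpectrum (𝓞 K) :=
  ⟨primeUnder K A, inferInstance, primeUnder_ne_bot hq.ne_zero hA⟩

@[simp] theorem plUnder_asIdeal (K : IntermediateField ℚ Qbar) (A : ValuationSubring Qbar) {q : ℕ}
    (hq : q.Prime) (hA : A.LiesOverPrime q) : (plUnder K A hq hA).asIdeal = primeUnder K A := rfl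

/-- black box of block [H] (`H/Main.lean`, helper10): the Hasse norm theorem -/
theorem hnt_box {K L : Type} [Field K] [NumberField K] [Field L] [NumberField L] [Algebra K L]
    [IsGalois K L] {p : ℕ} (hp : p.Prime) (hdeg : Module.finrank K L = p)
    [IsTotallyComplex K] (a : Kˣ) (ha : ∀ v : H.Pl K, a ∈ H.locNorm L v) :
    a ∈ H.normRange (K := K) L :=
  H.hnt L hp hdeg a ha

/-- black box of block [H] (`H/Main.lean`, helper10) -/
theorem locNorm_eq_top_of_split_box {K L : Type} [Field K] [NumberField K] [Field L]
    [NumberField L] [Algebra K L] [IsGalois K L] (hp : (Module.finrank K L).Prime) (v : H.Pl K)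
    (w w' : H.Pl L) (hw : w.under (𝓞 K) = v) (hw' : w'.under (𝓞 K) = v) (hne : w ≠ w') :
    H.locNorm L v = ⊤ :=
  H.locNorm_eq_top_of_split L hp v w w' hw hw' hne

end Fermat.Agent.S55.P
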