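import Fermat.Agent.S55.P.HNT.Norm

/-!
# S55, block (P), package P-HNT-2: places of `L` over a place of `K`; split places.
-/

set_option autoImplicit false

namespace Fermat.Agent.S55.P

open NumberField IsDedekindDomain
open scoped Pointwise

local notation "Qbar" => AlgebraicClosure ℚ
local notation "GQ" => (AlgebraicClosure ℚ ≃ₐ[ℚ] AlgebraicClosure ℚ)

variable {K L : IntermediateField ℚ Qbar}

theorem under_plUnder (h : K ≤ L) [NumberField K] [NumberField L] (A : ValuationSubring Qbar)
    {q : ℕ} (hq : q.Prime) (hA : A.LiesOverPrime q) :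
    letI := (IntermediateField.inclusion h).toRingHom.toAlgebra
    (plUnder L A hq hA).under (𝓞 K) = plUnder K A hq hA := by
  let _ := (IntermediateField.inclusion h).toRingHom.toAlgebra
  apply HeightOneSpectrum.ext
  ext x
  show algebraMap (𝓞 K) (𝓞 L) x ∈ primeUnder L A ↔ x ∈ primeUnder K A
  rw [mem_primeUnder, mem_primeUnder]
  rfl

theorem plUnder_smul_of_mem_fixingSubgroup (A : ValuationSubring Qbar)
    {q : ℕ} (hq : q.Prime) (hA : A.LiesOverPrime q) {u : GQ} (hu : u ∈ K.fixingSubgroup)
    (hA' : (u • A).LiesOverPrime q) :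
    plUnder K (u • A) hq hA' = plUnder K A hq hA :=
  HeightOneSpectrum.ext (primeUnder_smul_of_mem_fixingSubgroup K A hu)

/-- if the decomposition group of `A` over `K` acts trivially on `L` then there are two distinct
places of `L` over the place of `K` under `A` (the hypothesis `K ≤ L` is necessary) -/
theorem exists_ne_plUnder_of_inf_le (h : K ≤ L) (A : ValuationSubring Qbar)
    {q : ℕ} (hq : q.Prime) (hA : A.LiesOverPrime q)
    (hsplit : K.fixingSubgroup ⊓ A.decompositionSubgroup ℚ ≤ L.fixingSubgroup)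
    {σ : GQ} (hσK : σ ∈ K.fixingSubgroup) (hσL : σ ∉ L.fixingSubgroup)
    (hA' : (σ • A).LiesOverPrime q) :
    plUnder L (σ • A) hq hA' ≠ plUnder L A hq hA := by
  intro heq
  have h1 : primeUnder L (σ • A) = primeUnder L A := congrArg HeightOneSpectrum.asIdeal heq
  obtain ⟨u, hu, huA⟩ := exists_smul_eq_of_primeUnder_eq L hq (σ • A) A hA' h1
  have h2 : u * σ ∈ K.fixingSubgroup ⊓ A.decompositionSubgroup ℚ := by
    refine ⟨K.fixingSubgroup.mul_mem (IntermediateField.fixingSubgroup_le h hu) hσK, ?_⟩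
    show (u * σ) • A = A
    rw [mul_smul, huA]
  have h3 := hsplit h2
  exact hσL ((Subgroup.mul_mem_cancel_left _ hu).1 h3)

theorem locNorm_eq_top_of_inf_le (h : K ≤ L) [NumberField K] [NumberField L] {p : ℕ}
    (hp : p.Prime) (hN : (L.fixingSubgroup.subgroupOf K.fixingSubgroup).Normal)
    (hidx : L.fixingSubgroup.relIndex K.fixingSubgroup = p)
    (A : ValuationSubring Qbar) {q : ℕ} (hq : q.Prime) (hA : A.LiesOverPrime q)
    (hsplit : K.fixingSubgroup ⊓ A.decompositionSubgroup ℚ ≤ L.fixingSubgroup) :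
    letI := (IntermediateField.inclusion h).toRingHom.toAlgebra
    H.locNorm L (plUnder K A hq hA) = ⊤ := by
  let _ := (IntermediateField.inclusion h).toRingHom.toAlgebra
  -- an element of `Gal(ℚ̄/K)` which does not fix `L`
  obtain ⟨σ, hσK, hσL⟩ : ∃ σ ∈ K.fixingSubgroup, σ ∉ L.fixingSubgroup := by
    by_contra hcon
    push Not at hcon
    have hle : K.fixingSubgroup ≤ L.fixingSubgroup := hcon
    rw [Subgroup.relIndex_eq_one.2 hle] at hidx
    exact hp.one_lt.ne hidx
  have hA' : (σ • A).LiesOverPrime q := (liesOverPrime_smul_iff A σ q).2 hA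
  have hgal : IsGalois K L := (Fermat.Agent.S55.L.B2a.isGalois_iff h).2 hN
  have hdeg : Module.finrank K L = p := (Fermat.Agent.S55.L.B2a.finrank_eq_relIndex h).trans hidx
  refine locNorm_eq_top_of_split_box (by rw [hdeg]; exact hp) (plUnder K A hq hA)
    (plUnder L (σ • A) hq hA') (plUnder L A hq hA) ?_ (under_plUnder h A hq hA)
    (exists_ne_plUnder_of_inf_le h A hq hA hsplit hσK hσL hA')
  rw [under_plUnder h (σ • A) hq hA']
  exact plUnder_smul_of_mem_fixingSubgroup A hq hA hσK hA'

end Fermat.Agent.S55.P
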